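import Mathlib

/-!
# Tensor products of domains over an algebraically closed field (helper567, S25 block CURVE, C2a)

`k` algebraically closed, `A`, `B` commutative `k`-algebras which are domains
⟹ `A ⊗[k] B` is a domain.
-/

set_option autoImplicit false
set_option linter.unusedSectionVars false
set_option linter.style.haveILetI false
set_option linter.unusedSimpArgs false

noncomputable section

open TensorProduct

namespace Fermat.Agent.S25.H567

section Nullstellensatz

variable (k : Type*) [Field k] [IsAlgClosed k]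
variable {A : Type*} [CommRing A] [Algebra k A]

/-- Weak Nullstellensatz, pointwise form: in a finitely generated reduced algebra over an
algebraically closed field, a nonzero element is nonzero at some `k`-point. -/
theorem exists_algHom_ne_zero [Algebra.FiniteType k A] [IsReduced A] {c : A} (hc : c ≠ 0) :
    ∃ φ : A →ₐ[k] k, φ c ≠ 0 := by
  haveI : IsJacobsonRing A := isJacobsonRing_of_finiteType (A := k) (B := A)
  have hrad : (⊥ : Ideal A).IsRadical := by
    intro x hx
    obtain ⟨n, hn⟩ := hx
    exact (Ideal.mem_bot.mpr (IsReduced.eq_zero x ⟨n, Ideal.mem_bot.mp hn⟩))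
  have hjac : (⊥ : Ideal A).jacobson = ⊥ := IsJacobsonRing.out ‹_› hrad
  have hcn : c ∉ (⊥ : Ideal A).jacobson := by
    rw [hjac]
    exact hc
  rw [Ideal.jacobson, Ideal.mem_sInf] at hcn
  push Not at hcn
  obtain ⟨𝔪, ⟨-, h𝔪⟩, hc𝔪⟩ := hcn
  haveI := h𝔪
  letI : Field (A ⧸ 𝔪) := Ideal.Quotient.field 𝔪
  haveI : Algebra.FiniteType k (A ⧸ 𝔪) :=
    Algebra.FiniteType.of_surjective (Ideal.Quotient.mkₐ k 𝔪) Ideal.Quotient.mk_surjective
  haveI : Module.Finite k (A ⧸ 𝔪) := finite_of_finite_type_of_isJacobsonRing k (A ⧸ 𝔪)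
  haveI : Algebra.IsIntegral k (A ⧸ 𝔪) := Algebra.IsIntegral.of_finite k (A ⧸ 𝔪)
  have hbij : Function.Bijective (algebraMap k (A ⧸ 𝔪)) :=
    IsAlgClosed.algebraMap_bijective_of_isIntegral
  let e : k ≃ₐ[k] (A ⧸ 𝔪) := AlgEquiv.ofBijective (Algebra.ofId k (A ⧸ 𝔪)) hbij
  refine ⟨e.symm.toAlgHom.comp (Ideal.Quotient.mkₐ k 𝔪), ?_⟩
  intro h0
  apply hc𝔪
  have h1 : (Ideal.Quotient.mkₐ k 𝔪) c = 0 := by
    have : e.symm ((Ideal.Quotient.mkₐ k 𝔪) c) = 0 := h0
    simpa using this
  exact Ideal.Quotient.eq_zero_iff_mem.mp h1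

end Nullstellensatz

section Domain

variable (k : Type*) [Field k] [IsAlgClosed k]
variable (A B : Type*) [CommRing A] [CommRing B] [Algebra k A] [Algebra k B]

/-- The finitely generated case. -/
theorem mul_eq_zero_of_finiteType [Algebra.FiniteType k A] [IsDomain A] [IsDomain B]
    (x y : A ⊗[k] B) (h : x * y = 0) : x = 0 ∨ y = 0 := by
  classical
  let 𝒞 := Module.Free.chooseBasis k B
  obtain ⟨a, rfl⟩ := TensorProduct.eq_repr_basis_right 𝒞 x
  obtain ⟨a', rfl⟩ := TensorProduct.eq_repr_basis_right 𝒞 y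
  by_contra hne
  push Not at hne
  have ha : a ≠ 0 := fun h0 => hne.1 (by rw [h0]; simp)
  have ha' : a' ≠ 0 := fun h0 => hne.2 (by rw [h0]; simp)
  obtain ⟨i₀, hi₀⟩ : ∃ i, a i ≠ 0 := by
    by_contra hall
    push Not at hall
    exact ha (Finsupp.ext hall)
  obtain ⟨j₀, hj₀⟩ : ∃ j, a' j ≠ 0 := by
    by_contra hall
    push Not at hall
    exact ha' (Finsupp.ext hall)
  obtain ⟨φ, hφ⟩ := exists_algHom_ne_zero k (mul_ne_zero hi₀ hj₀)
  -- the specialization map
  let ψ : A ⊗[k] B →ₐ[k] B :=
    Algebra.TensorProduct.lift ((Algebra.ofId k B).comp φ) (AlgHom.id k B)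
      (fun _ _ => Commute.all _ _)
  have hψ : ∀ (b : _ →₀ A), ψ (b.sum fun i m => m ⊗ₜ[k] 𝒞 i) =
      Finsupp.linearCombination k 𝒞 (b.mapRange φ (map_zero φ)) := by
    intro b
    rw [Finsupp.sum, map_sum, Finsupp.linearCombination_apply, Finsupp.sum_mapRange_index
      (by intro i; simp)]
    rw [Finsupp.sum]
    refine Finset.sum_congr rfl fun i _ => ?_
    simp [ψ, Algebra.ofId_apply, Algebra.smul_def]
  have hprod : ψ (a.sum fun i m => m ⊗ₜ[k] 𝒞 i) * ψ (a'.sum fun i m => m ⊗ₜ[k] 𝒞 i) = 0 := by
    rw [← map_mul, h, map_zero]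
  have key : ∀ (b : _ →₀ A), ψ (b.sum fun i m => m ⊗ₜ[k] 𝒞 i) = 0 → ∀ i, φ (b i) = 0 := by
    intro b hb i
    rw [hψ] at hb
    have := 𝒞.linearIndependent
    rw [linearIndependent_iff] at this
    have h0 := this _ hb
    have := DFunLike.congr_fun h0 i
    simpa using this
  rcases mul_eq_zero.mp hprod with h1 | h1
  · exact hφ (by rw [map_mul, key a h1 i₀, zero_mul])
  · exact hφ (by rw [map_mul, key a' h1 j₀, mul_zero])

/-- **C2a.** Over an algebraically closed field the tensor product of two domains is a domain. -/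
theorem isDomain_tensorProduct [IsDomain A] [IsDomain B] : IsDomain (A ⊗[k] B) := by
  classical
  haveI : Nontrivial (A ⊗[k] B) :=
    (Algebra.TensorProduct.includeLeft_injective (R := k) (S := k) (A := A) (B := B)
      (algebraMap k B).injective).nontrivial
  haveI : NoZeroDivisors (A ⊗[k] B) := by
    refine ⟨fun {x y} h => ?_⟩
    let 𝒞 := Module.Free.chooseBasis k B
    obtain ⟨a, hx⟩ := TensorProduct.eq_repr_basis_right 𝒞 x
    obtain ⟨a', hy⟩ := TensorProduct.eq_repr_basis_right 𝒞 y
    -- the finitely generated subalgebra containing all coefficients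
    let s : Finset A := a.support.image a ∪ a'.support.image a'
    let A' : Subalgebra k A := Algebra.adjoin k (s : Set A)
    haveI : Algebra.FiniteType k A' := by
      rw [← Subalgebra.fg_iff_finiteType]
      exact ⟨s, rfl⟩
    have hmem : ∀ i, a i ∈ A' := by
      intro i
      by_cases hi : i ∈ a.support
      · exact Algebra.subset_adjoin (Finset.mem_coe.mpr
          (Finset.mem_union_left _ (Finset.mem_image_of_mem a hi)))
      · rw [Finsupp.notMem_support_iff.mp hi]
        exact zero_mem _
    have hmem' : ∀ i, a' i ∈ A' := by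
      intro i
      by_cases hi : i ∈ a'.support
      · exact Algebra.subset_adjoin (Finset.mem_coe.mpr
          (Finset.mem_union_right _ (Finset.mem_image_of_mem a' hi)))
      · rw [Finsupp.notMem_support_iff.mp hi]
        exact zero_mem _
    let ι' : A' ⊗[k] B →ₐ[k] A ⊗[k] B := Algebra.TensorProduct.map A'.val (AlgHom.id k B)
    have hι' : Function.Injective ι' := by
      have := Module.Flat.rTensor_preserves_injective_linearMap (M := B) A'.val.toLinearMap
        Subtype.val_injective
      intro u v huv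
      apply this
      have e : ∀ w, LinearMap.rTensor B A'.val.toLinearMap w = ι' w := by
        intro w
        induction w using TensorProduct.induction_on with
        | zero => simp
        | tmul p q => simp [ι']
        | add p q hp hq => rw [map_add, map_add, hp, hq]
      rw [e, e, huv]
    let x' : A' ⊗[k] B := ∑ i ∈ a.support, (⟨a i, hmem i⟩ : A') ⊗ₜ[k] 𝒞 i
    let y' : A' ⊗[k] B := ∑ i ∈ a'.support, (⟨a' i, hmem' i⟩ : A') ⊗ₜ[k] 𝒞 i
    have hx' : ι' x' = x := by
      rw [← hx, Finsupp.sum, map_sum]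
      refine Finset.sum_congr rfl fun i _ => ?_
      simp [ι']
    have hy' : ι' y' = y := by
      rw [← hy, Finsupp.sum, map_sum]
      refine Finset.sum_congr rfl fun i _ => ?_
      simp [ι']
    have hxy' : x' * y' = 0 := by
      apply hι'
      rw [map_mul, hx', hy', h, map_zero]
    rcases mul_eq_zero_of_finiteType k A' B x' y' hxy' with h1 | h1
    · left; rw [← hx', h1, map_zero]
    · right; rw [← hy', h1, map_zero]
  exact ⟨⟩

end Domain

/-- **A1** (exact frozen statement of the CURVE skeleton `Curve/Alg/TensorDomain.lean`). -/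
theorem isDomain_tensorProduct_of_isAlgClosed (k : Type*) [Field k] [IsAlgClosed k]
    (A B : Type*) [CommRing A] [CommRing B] [Algebra k A] [Algebra k B]
    [IsDomain A] [IsDomain B] : IsDomain (A ⊗[k] B) :=
  isDomain_tensorProduct k A B

end Fermat.Agent.S25.H567
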