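import Mathlib
import Fermat.Agent.S25.H567.TensorDomain

/-!
# Integral schemes over an algebraically closed field are geometrically integral (helper567)

Blueprint leaf A3 of row S25 (block ABEL), Mathlib only.

* `geometricallyIntegral_specMap_of_isAlgClosed` : for `k` algebraically closed and any field
  `K ⊇ k`, `Spec K ⟶ Spec k` is geometrically integral (tensor products of domains over `k`
  are domains);
* `isIntegral_pullback_of_isAlgClosed` : `X` integral and locally noetherian over `k` ⇒
  `X ×ₖ Spec K` is integral;
* `geometricallyIntegral_of_isAlgClosed` : `X` integral and locally noetherian over `k` ⇒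
  `X ⟶ Spec k` is geometrically integral;
* `isIntegral_pullback_of_isIntegral` : the product of two integral, locally noetherian
  `k`-schemes is integral.
-/

set_option autoImplicit false

universe u

open CategoryTheory CategoryTheory.Limits AlgebraicGeometry TensorProduct

namespace Fermat.Agent.S25.H567

noncomputable section

variable {k : Type u} [Field k] [IsAlgClosed k]

/-- For an algebraically closed field `k` and a field extension `K`, the morphism
`Spec K ⟶ Spec k` is geometrically integral. -/
theorem geometricallyIntegral_specMap_of_isAlgClosed (K : Type u) [Field K] [Algebra k K] :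
    GeometricallyIntegral (Spec.map (CommRingCat.ofHom (algebraMap k K))) := by
  constructor
  intro L _ y Z fst snd hP
  obtain ⟨ψ, rfl⟩ := Spec.map_surjective y
  algebraize [ψ.hom]
  have hdom : IsDomain (K ⊗[k] L) := isDomain_tensorProduct k K L
  have hint : IsIntegral (Spec (CommRingCat.of (K ⊗[k] L))) := inferInstance
  have e : Z ≅ Spec (CommRingCat.of (K ⊗[k] L)) := hP.isoPullback ≪≫ pullbackSpecIso k K L
  exact IsIntegral.of_isIso e.inv

/-- Any morphism `Spec K ⟶ Spec k` from the spectrum of a field to the spectrum of an
algebraically closed field is geometrically integral. -/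
theorem geometricallyIntegral_of_field (K : Type u) [Field K]
    (y : Spec (CommRingCat.of K) ⟶ Spec (CommRingCat.of k)) : GeometricallyIntegral y := by
  obtain ⟨φ, rfl⟩ := Spec.map_surjective y
  algebraize [φ.hom]
  exact geometricallyIntegral_specMap_of_isAlgClosed K

/-- Base change of an integral, locally noetherian `k`-scheme to a field extension is
integral. -/
theorem isIntegral_pullback_of_isAlgClosed {X : Scheme.{u}} [IsIntegral X]
    [IsLocallyNoetherian X] (f : X ⟶ Spec (CommRingCat.of k)) (K : Type u) [Field K]
    (y : Spec (CommRingCat.of K) ⟶ Spec (CommRingCat.of k)) : IsIntegral (pullback f y) := by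
  have := geometricallyIntegral_of_field (k := k) K y
  infer_instance

/-- **An integral, locally noetherian scheme over an algebraically closed field is
geometrically integral.** -/
theorem geometricallyIntegral_of_isAlgClosed {X : Scheme.{u}} [IsIntegral X]
    [IsLocallyNoetherian X] (f : X ⟶ Spec (CommRingCat.of k)) : GeometricallyIntegral f := by
  constructor
  intro K _ y Z fst snd hP
  have := isIntegral_pullback_of_isAlgClosed f K y
  exact IsIntegral.of_isIso hP.isoPullback.inv

/-- The product of two integral, locally noetherian schemes over an algebraically closed
field is integral. -/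
theorem isIntegral_pullback_of_isIntegral {X Y : Scheme.{u}} [IsIntegral X]
    [IsLocallyNoetherian X] [IsIntegral Y] [IsLocallyNoetherian Y]
    (f : X ⟶ Spec (CommRingCat.of k)) (g : Y ⟶ Spec (CommRingCat.of k)) :
    IsIntegral (pullback f g) := by
  have := geometricallyIntegral_of_isAlgClosed f
  infer_instance

end

end Fermat.Agent.S25.H567
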