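import Mathlib
import Fermat.Agent.S25.H567.GeomIntegral

/-!
# Fibre powers `C^n` of a proper integral scheme over an algebraically closed field (helper567)

Blueprint leaf A3 of row S25 (block ABEL), Mathlib only.

`FibrePower c n` packages an `n`-fold fibre power of `c : C ⟶ S` together with its projections
and its universal property.  `fibrePower c n` is the standard model (iterated `pullback`).
Over `S = Spec k`, `k` algebraically closed, with `C` integral and `c` proper, the structure
morphism of `C^n` is proper and geometrically integral, and `C^n` is integral.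
-/

set_option autoImplicit false

universe u

open CategoryTheory CategoryTheory.Limits AlgebraicGeometry

namespace Fermat.Agent.S25.H567

noncomputable section

/-- An `n`-fold fibre power of `c : C ⟶ S`, with projections and universal property. -/
structure FibrePower {C S : Scheme.{u}} (c : C ⟶ S) (n : ℕ) where
  /-- the total space -/
  X : Scheme.{u}
  /-- the structure morphism -/
  x : X ⟶ S
  /-- the projections -/
  pr : Fin n → (X ⟶ C)
  pr_comp : ∀ i, pr i ≫ c = x
  /-- the morphism determined by a tuple of `S`-morphisms to `C` -/
  lift : ∀ {T : Scheme.{u}} (t : T ⟶ S) (p : Fin n → (T ⟶ C)), (∀ i, p i ≫ c = t) → (T ⟶ X)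
  lift_x : ∀ {T : Scheme.{u}} (t : T ⟶ S) (p : Fin n → (T ⟶ C)) (hp : ∀ i, p i ≫ c = t),
    lift t p hp ≫ x = t
  lift_pr : ∀ {T : Scheme.{u}} (t : T ⟶ S) (p : Fin n → (T ⟶ C)) (hp : ∀ i, p i ≫ c = t)
    (i : Fin n), lift t p hp ≫ pr i = p i
  hom_ext : ∀ {T : Scheme.{u}} (g g' : T ⟶ X), g ≫ x = g' ≫ x →
    (∀ i, g ≫ pr i = g' ≫ pr i) → g = g'

namespace FibrePower

variable {C S : Scheme.{u}} (c : C ⟶ S)

/-- The zeroth fibre power is the base. -/
def zero : FibrePower c 0 where
  X := S
  x := 𝟙 S
  pr := Fin.elim0
  pr_comp := fun i => i.elim0
  lift := fun t _ _ => t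
  lift_x := fun t _ _ => Category.comp_id t
  lift_pr := fun _ _ _ i => i.elim0
  hom_ext := fun g g' h _ => by simpa using h

variable {c}

/-- The next fibre power: `C ×_S C^n`. -/
def succ {n : ℕ} (P : FibrePower c n) : FibrePower c (n + 1) where
  X := pullback c P.x
  x := pullback.fst c P.x ≫ c
  pr := Fin.cons (pullback.fst c P.x) (fun i => pullback.snd c P.x ≫ P.pr i)
  pr_comp := by
    intro i
    refine Fin.cases ?_ (fun j => ?_) i
    · simp
    · simp only [Fin.cons_succ, Category.assoc, P.pr_comp]
      exact pullback.condition.symm
  lift := fun {T} t p hp =>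
    pullback.lift (p 0) (P.lift t (fun i => p i.succ) (fun i => hp i.succ))
      (by rw [hp 0, P.lift_x])
  lift_x := by
    intro T t p hp
    rw [pullback.lift_fst_assoc]
    exact hp 0
  lift_pr := by
    intro T t p hp i
    refine Fin.cases ?_ (fun j => ?_) i
    · simp only [Fin.cons_zero, pullback.lift_fst]
    · simp only [Fin.cons_succ, pullback.lift_snd_assoc]
      exact P.lift_pr t _ _ j
  hom_ext := by
    intro T g g' h hpr
    apply pullback.hom_ext
    · simpa using hpr 0
    · apply P.hom_ext
      · have h1 : pullback.snd c P.x ≫ P.x = pullback.fst c P.x ≫ c := pullback.condition.symm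
        rw [Category.assoc, Category.assoc, h1, ← Category.assoc, ← Category.assoc]
        exact h
      · intro i
        have := hpr i.succ
        simpa only [Fin.cons_succ, Category.assoc] using this

/-- Morphisms to the fibre power over `S` are tuples of morphisms to `C` over `S`. -/
def homEquiv {n : ℕ} (P : FibrePower c n) {T : Scheme.{u}} (t : T ⟶ S) :
    {g : T ⟶ P.X // g ≫ P.x = t} ≃ {p : Fin n → (T ⟶ C) // ∀ i, p i ≫ c = t} where
  toFun g := ⟨fun i => g.1 ≫ P.pr i, fun i => by rw [Category.assoc, P.pr_comp, g.2]⟩
  invFun p := ⟨P.lift t p.1 p.2, P.lift_x t p.1 p.2⟩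
  left_inv g := by
    apply Subtype.ext
    apply P.hom_ext
    · rw [P.lift_x, g.2]
    · intro i
      rw [P.lift_pr]
  right_inv p := by
    apply Subtype.ext
    funext i
    exact P.lift_pr t p.1 p.2 i

end FibrePower

/-- The standard `n`-fold fibre power (iterated pullbacks). -/
def fibrePower {C S : Scheme.{u}} (c : C ⟶ S) : (n : ℕ) → FibrePower c n
  | 0 => FibrePower.zero c
  | n + 1 => (fibrePower c n).succ

section Properties

variable {C S : Scheme.{u}} (c : C ⟶ S)

theorem fibrePower_succ_X (n : ℕ) :
    (fibrePower c (n + 1)).X = pullback c (fibrePower c n).x := rfl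

theorem fibrePower_succ_x (n : ℕ) :
    (fibrePower c (n + 1)).x = pullback.fst c (fibrePower c n).x ≫ c := rfl

theorem fibrePower_succ_x' (n : ℕ) :
    (fibrePower c (n + 1)).x = pullback.snd c (fibrePower c n).x ≫ (fibrePower c n).x :=
  pullback.condition

/-- Fibre powers of a proper morphism are proper. -/
theorem isProper_fibrePower [IsProper c] (n : ℕ) : IsProper (fibrePower c n).x := by
  induction n with
  | zero => exact (inferInstance : IsProper (𝟙 S))
  | succ n ih =>
    have h : IsProper (pullback.snd c (fibrePower c n).x ≫ (fibrePower c n).x) := inferInstance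
    rw [fibrePower_succ_x']
    exact h

/-- Fibre powers of a morphism locally of finite type are locally of finite type. -/
theorem locallyOfFiniteType_fibrePower [LocallyOfFiniteType c] (n : ℕ) :
    LocallyOfFiniteType (fibrePower c n).x := by
  induction n with
  | zero => exact (inferInstance : LocallyOfFiniteType (𝟙 S))
  | succ n ih =>
    have h : LocallyOfFiniteType (pullback.snd c (fibrePower c n).x ≫ (fibrePower c n).x) :=
      inferInstance
    rw [fibrePower_succ_x']
    exact h

end Properties

section Field

variable {k : Type u} [Field k] {C : Scheme.{u}}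
  (c : C ⟶ Spec (CommRingCat.of k))

/-- Fibre powers over a field are locally noetherian. -/
theorem isLocallyNoetherian_fibrePower [LocallyOfFiniteType c] (n : ℕ) :
    IsLocallyNoetherian (fibrePower c n).X := by
  have := locallyOfFiniteType_fibrePower c n
  exact LocallyOfFiniteType.isLocallyNoetherian (fibrePower c n).x

variable [IsAlgClosed k]

/-- Fibre powers of an integral scheme locally of finite type over an algebraically closed
field are integral. -/
theorem isIntegral_fibrePower [LocallyOfFiniteType c] [IsIntegral C] (n : ℕ) :
    IsIntegral (fibrePower c n).X := by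
  induction n with
  | zero => exact (inferInstance : IsIntegral (Spec (CommRingCat.of k)))
  | succ n ih =>
    have h1 : IsLocallyNoetherian C := LocallyOfFiniteType.isLocallyNoetherian c
    have h2 := isLocallyNoetherian_fibrePower c n
    rw [fibrePower_succ_X]
    exact isIntegral_pullback_of_isIntegral c (fibrePower c n).x

/-- **Fibre powers of an integral scheme locally of finite type over an algebraically closed
field are geometrically integral.** -/
theorem geometricallyIntegral_fibrePower [LocallyOfFiniteType c] [IsIntegral C] (n : ℕ) :
    GeometricallyIntegral (fibrePower c n).x := by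
  have h1 := isIntegral_fibrePower c n
  have h2 := isLocallyNoetherian_fibrePower c n
  exact geometricallyIntegral_of_isAlgClosed (fibrePower c n).x

/-- Summary (blueprint A3): for a proper integral `k`-scheme `C`, `k` algebraically closed,
`C^n ⟶ Spec k` is proper and geometrically integral, and `C^n` is integral. -/
theorem fibrePower_isProper_and_geometricallyIntegral [IsProper c] [IsIntegral C] (n : ℕ) :
    IsProper (fibrePower c n).x ∧ GeometricallyIntegral (fibrePower c n).x ∧
      IsIntegral (fibrePower c n).X :=
  ⟨isProper_fibrePower c n, geometricallyIntegral_fibrePower c n, isIntegral_fibrePower c n⟩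

end Field

end

end Fermat.Agent.S25.H567
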