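import Fermat.Agent.S25.H567.AbelGlue
import Fermat.Agent.S25.H567.FibrePower
import Fermat.Agent.S25.H206.FamilyAlgEquivZero
import Fermat.Agent.S25.H687.DDDefs
import Fermat.Agent.S25.H310.DegreeInvariance

/-!
# Row S25, block ABEL (scheme side), part 4 (helper567): the Abel family on `C × C^g`

From an algebraic Abel family `𝔉` (block AB-ALG), the dictionary (`DictGlue`, `DictIso`,
`DictBC`, `DictUnit`) and Zariski descent in the base (`SheafGlue`, `SheafSep`) we construct the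
rigidified line bundle on `C × C^g` and prove

* `abelFamily_core` : the common core (a bundle on `C^g`, trivial at a `k`-point, whose fibre at
  the point of a tuple `Q` of chart points is the bundle of `𝔉.F K Q`);
* `abelFamily`      : `H746.Stmt.AbelFamily Ch`;
* `abelAlg`         : `H687.AbelAlg Ch`.
-/

set_option autoImplicit false
universe u
open CategoryTheory CategoryTheory.Limits AlgebraicGeometry AlgebraicGeometry.RelPicard
  NeronModelInfra GoodReductionJacobian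
open scoped TensorProduct

namespace Fermat.Agent.S25.H567

open Fermat.Agent.S25 Fermat.Agent.S25.H746 Fermat.Agent.S25.H130

noncomputable section

variable {k : Type u} [Field k] {C : Scheme.{u}} {c : C ⟶ Spec (CommRingCat.of k)}
  {ε : SchemeHomOver (𝟙 (Spec (CommRingCat.of k))) c}

theorem specStr_self : specStr k k = 𝟙 (Spec (CommRingCat.of k)) :=
  Spec.map_id _

/-- Change of the structure morphism of the test scheme along an equality. -/
theorem unit_fibre_of_eq {T S : Scheme.{u}} {t : T ⟶ Spec (CommRingCat.of k)}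
    (M : RigidifiedLineBundle c ε t) {s s' : S ⟶ Spec (CommRingCat.of k)} (h : s = s')
    (r : SchemeHomOver s t) (r' : SchemeHomOver s' t) (hr : r.1 = r'.1)
    (hiso : RIso (M.pullbackAlong r) (RigidifiedLineBundle.unit s)) :
    Nonempty ((M.pullbackAlong r').L ≅
      (RigidifiedLineBundle.unit (c := c) (ε := ε) s').L) := by
  subst h
  obtain rfl : r = r' := Subtype.ext hr
  exact hiso

variable (Ch : ChartOf c ε)

/-- The common core of the two forms of the Abel family. -/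
theorem abelFamily_core [IsAlgClosed k] [IsProper c] [IsIntegral C]
    (𝔉 : AlgAbelFamily k Ch.B₀ Ch.B₁ Ch.B₀₁ Ch.e)
    (hGlue : Stmt.SheafGlue c ε) (hSep : Stmt.SheafSep c ε)
    (hDG : Stmt.DictGlue Ch) (hDI : Stmt.DictIso Ch) (hDB : Stmt.DictBC Ch)
    (hDU : H746.Stmt.DictUnit Ch) :
    ∃ (X : Scheme.{u}) (x : X ⟶ Spec (CommRingCat.of k)) (_ : IsProper x)
      (_ : GeometricallyIntegral x) (M : RigidifiedLineBundle c ε x)
      (x₀ : SchemeHomOver (𝟙 (Spec (CommRingCat.of k))) x),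
      Nonempty ((M.pullbackAlong x₀).L ≅
        SheafOfModules.unit (pullback c (𝟙 (Spec (CommRingCat.of k)))).ringCatSheaf) ∧
      ∀ (K : Type u) [Field K] [Algebra k K]
        (L : RigidifiedLineBundle c ε (specStr k K)) (G : CurveGD k Ch.B₀ Ch.B₁ Ch.B₀₁ K)
        (Q : Fin 𝔉.g → ChartPt k Ch.B₀ Ch.B₁ K), Corr Ch K L.L G → G.IsIso (𝔉.F K Q) →
        ∃ p : SchemeHomOver (specStr k K) x, RIso (M.pullbackAlong p) L := by
  let P := fibrePower c 𝔉.g
  obtain ⟨hproper, hgi, -⟩ := fibrePower_isProper_and_geometricallyIntegral c 𝔉.g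
  obtain ⟨M, hM⟩ := exists_isAbelBundleField (𝔉 := 𝔉) hGlue hSep hDG hDI hDB P.x P.pr P.pr_comp
  -- fibres at tuples of chart points
  have hfib : ∀ (K : Type u) [Field K] [Algebra k K]
      (L : RigidifiedLineBundle c ε (specStr k K)) (G : CurveGD k Ch.B₀ Ch.B₁ Ch.B₀₁ K)
      (Q : Fin 𝔉.g → ChartPt k Ch.B₀ Ch.B₁ K), Corr Ch K L.L G → G.IsIso (𝔉.F K Q) →
      ∃ p : SchemeHomOver (specStr k K) P.x, RIso (M.pullbackAlong p) L := by
    intro K _ _ L G Q hL hG
    have hlx := P.lift_x (specStr k K) (fun i => chartPtHom Ch (Q i))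
      (fun i => chartPtHom_comp_str Ch (Q i))
    have hlp := P.lift_pr (specStr k K) (fun i => chartPtHom Ch (Q i))
      (fun i => chartPtHom_comp_str Ch (Q i))
    exact ⟨⟨_, hlx⟩, hM K ⟨_, hlx⟩ Q (fun i => (hlp i).symm) L G hL hG⟩
  -- the trivial fibre
  obtain ⟨p, hp⟩ := hfib k (RigidifiedLineBundle.unit (specStr k k)) _ (fun _ => Sum.inr Ch.e)
    (hDU k) (gdIsIso_symm 𝔉.triv)
  refine ⟨P.X, P.x, hproper, hgi, M, ⟨p.1, by rw [p.2, specStr_self]⟩, ?_, hfib⟩
  exact unit_fibre_of_eq M specStr_self p _ rfl hp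

/-- **ABEL-FAMILY** (`H746.Stmt.AbelFamily`). -/
theorem abelFamily [IsAlgClosed k] [IsProper c] [IsIntegral C]
    (𝔉 : AlgAbelFamily k Ch.B₀ Ch.B₁ Ch.B₀₁ Ch.e)
    (hGlue : Stmt.SheafGlue c ε) (hSep : Stmt.SheafSep c ε)
    (hDG : Stmt.DictGlue Ch) (hDI : Stmt.DictIso Ch) (hDB : Stmt.DictBC Ch)
    (hDU : H746.Stmt.DictUnit Ch) : H746.Stmt.AbelFamily Ch := by
  obtain ⟨X, x, hproper, hgi, M, x₀, h₀, hfib⟩ :=
    abelFamily_core Ch 𝔉 hGlue hSep hDG hDI hDB hDU
  have hlft : LocallyOfFiniteType x := inferInstance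
  refine ⟨X, x, hproper, hgi, M, H206.fibrewiseAlgEquivZero_of_trivial_fibre x M x₀ h₀, ?_⟩
  intro K _ _ _ L G hL hG
  obtain ⟨Q, hQ⟩ := 𝔉.surj K G hG
  exact hfib K L G Q hL hQ

/-- **ABEL, algebraic form** (`H687.AbelAlg`). -/
theorem abelAlg [IsAlgClosed k] [IsProper c] [IsIntegral C]
    (𝔉 : AlgAbelFamily k Ch.B₀ Ch.B₁ Ch.B₀₁ Ch.e)
    (hGlue : Stmt.SheafGlue c ε) (hSep : Stmt.SheafSep c ε)
    (hDG : Stmt.DictGlue Ch) (hDI : Stmt.DictIso Ch) (hDB : Stmt.DictBC Ch)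
    (hDU : H746.Stmt.DictUnit Ch) : H687.AbelAlg Ch := by
  obtain ⟨X, x, hproper, hgi, M, x₀, h₀, hfib⟩ :=
    abelFamily_core Ch 𝔉 hGlue hSep hDG hDI hDB hDU
  refine ⟨X, x, hproper, hgi, M, x₀, h₀, ?_⟩
  intro K _ _ _ L G hL hG
  have hdeg : G.Deg0 := fun K' _ _ φ G' h => (H310.degree_eq_of_isBC φ h).trans hG
  obtain ⟨Q, hQ⟩ := 𝔉.surj K G hdeg
  exact hfib K L G Q hL hQ

end

end Fermat.Agent.S25.H567
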