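import Fermat.Agent.S25.H567.AbelFamily
import Fermat.Agent.S25.H145.SheafSep
import Fermat.Agent.S25.H986.DictIsoMpr
import Fermat.Agent.S25.H505.DictBC

/-!
# Row S25, block ABEL (scheme side), closed form (helper567)

With `SheafSep` (helper145), `DictIso` (helper986), `DictBC` (helper505) and `DictUnit` (helper566)
on main, the Abel family `H687.AbelAlg Ch` (and `H746.Stmt.AbelFamily Ch`) depends only on

* `H746.Stmt.AlgAbel k Ch.B₀ Ch.B₁ Ch.B₀₁` (block AB-ALG, pure algebra),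
* `Stmt.SheafGlue c ε`,
* `Stmt.DictGlue Ch`.
-/

set_option autoImplicit false
universe u
open CategoryTheory CategoryTheory.Limits AlgebraicGeometry AlgebraicGeometry.RelPicard
  NeronModelInfra GoodReductionJacobian
open scoped TensorProduct

namespace Fermat.Agent.S25.H567

open Fermat.Agent.S25 Fermat.Agent.S25.H746

variable {k : Type u} [Field k] {C : Scheme.{u}} {c : C ⟶ Spec (CommRingCat.of k)}
  {ε : SchemeHomOver (𝟙 (Spec (CommRingCat.of k))) c}

/-- `DictUnit` in the form of `H746/AbelDefs.lean`. -/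
theorem dictUnit_closed (Ch : ChartOf c ε) : H746.Stmt.DictUnit Ch :=
  fun A _ _ => H566.dictUnit Ch A

/-- **ABEL, algebraic form**, closed: needs only `AlgAbel`, `SheafGlue`, `DictGlue`. -/
theorem abelAlg_closed [IsAlgClosed k] [IsProper c] [IsIntegral C] (Ch : ChartOf c ε)
    (hAA : H746.Stmt.AlgAbel k Ch.B₀ Ch.B₁ Ch.B₀₁) (hGlue : Stmt.SheafGlue c ε)
    (hDG : Stmt.DictGlue Ch) : H687.AbelAlg Ch := by
  obtain ⟨𝔉⟩ := hAA Ch.x Ch.y Ch.e Ch.isCurveChart
  have hSep : Stmt.SheafSep c ε := H145.sheafSep k c ε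
  exact abelAlg Ch 𝔉 hGlue hSep hDG (H986.dictIso Ch) (H505.dictBC Ch) (dictUnit_closed Ch)

/-- **ABEL-FAMILY**, closed: needs only `AlgAbel`, `SheafGlue`, `DictGlue`. -/
theorem abelFamily_closed [IsAlgClosed k] [IsProper c] [IsIntegral C] (Ch : ChartOf c ε)
    (hAA : H746.Stmt.AlgAbel k Ch.B₀ Ch.B₁ Ch.B₀₁) (hGlue : Stmt.SheafGlue c ε)
    (hDG : Stmt.DictGlue Ch) : H746.Stmt.AbelFamily Ch := by
  obtain ⟨𝔉⟩ := hAA Ch.x Ch.y Ch.e Ch.isCurveChart
  have hSep : Stmt.SheafSep c ε := H145.sheafSep k c ε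
  exact abelFamily Ch 𝔉 hGlue hSep hDG (H986.dictIso Ch) (H505.dictBC Ch) (dictUnit_closed Ch)

end Fermat.Agent.S25.H567
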