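import Fermat.Agent.S25.H567.AbelPts

/-!
# Row S25, block ABEL (scheme side), part 2 (helper567): good affine charts of a family of points

Let `q : Fin g → (T ⟶ C)` be a tuple of morphisms over `k` (for instance the projections of
`C^g`).  Every point of `T` has an affine open neighbourhood `Spec A ⟶ T` on which every `q i`
is the morphism of a chart point `P i` with values in `A`, and such that the gluing datum
`𝔉.F A P` of an algebraic Abel family is rigidifiable.
-/

set_option autoImplicit false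
universe u
open CategoryTheory CategoryTheory.Limits AlgebraicGeometry AlgebraicGeometry.RelPicard
  NeronModelInfra GoodReductionJacobian
open scoped TensorProduct

namespace Fermat.Agent.S25.H567

open Fermat.Agent.S25 Fermat.Agent.S25.H746

noncomputable section

variable {k : Type u} [Field k] {C : Scheme.{u}} {c : C ⟶ Spec (CommRingCat.of k)}
  {ε : SchemeHomOver (𝟙 (Spec (CommRingCat.of k))) c} (Ch : ChartOf c ε)

/-- Every point of `C` lies in one of the two charts. -/
theorem mem_chart_or (z : C) : z ∈ Ch.U₀ ∨ z ∈ Ch.U₁ := by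
  have h : z ∈ (Ch.U₀ ⊔ Ch.U₁ : C.Opens) := by rw [Ch.cover]; trivial
  exact h

/-- First step: an affine neighbourhood on which every `q i` is a chart point. -/
theorem exists_chartPts {g : ℕ} {T : Scheme.{u}} (t : T ⟶ Spec (CommRingCat.of k))
    (q : Fin g → (T ⟶ C)) (hq : ∀ i, q i ≫ c = t) (ξ : T) :
    ∃ (A : Type u) (_ : CommRing A) (_ : Algebra k A) (j : Spec (CommRingCat.of A) ⟶ T)
      (_ : IsOpenImmersion j) (_ : j ≫ t = specStr k A) (P : Fin g → ChartPt k Ch.B₀ Ch.B₁ A),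
      ξ ∈ Set.range j ∧ ∀ i, chartPtHom Ch (P i) = j ≫ q i := by
  -- the open set where every `q i` lands in the chosen chart
  have hex : ∀ i, ∃ U : C.Opens, (U = Ch.U₀ ∨ U = Ch.U₁) ∧ q i ξ ∈ U := by
    intro i
    rcases mem_chart_or Ch (q i ξ) with h | h
    · exact ⟨Ch.U₀, Or.inl rfl, h⟩
    · exact ⟨Ch.U₁, Or.inr rfl, h⟩
  choose U hU hξU using hex
  let W : T.Opens := ⨅ i, (q i) ⁻¹ᵁ (U i)
  have hξW : ξ ∈ W := by
    have : (ξ ∈ (W : Set T)) := by
      rw [TopologicalSpace.Opens.coe_iInf]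
      simp only [Set.mem_iInter]
      intro i
      exact hξU i
    exact this
  have hWle : ∀ i, W ≤ (q i) ⁻¹ᵁ (U i) := fun i => iInf_le _ i
  obtain ⟨_, ⟨V, hV, rfl⟩, hξV, hVW⟩ :=
    T.isBasis_affineOpens.exists_subset_of_mem_open hξW W.2
  have hVaff : IsAffineOpen V := hV
  let _ : Algebra k Γ(T, V) := (sectionsStr t V).toAlgebra
  have hj : hVaff.fromSpec ≫ t = specStr k Γ(T, V) := fromSpec_comp_str hVaff
  have hrange : ∀ i, Set.range (hVaff.fromSpec ≫ q i) ⊆ (U i : Set C) := by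
    rintro i _ ⟨z, rfl⟩
    have hz : hVaff.fromSpec z ∈ (V : Set T) := by
      rw [← hVaff.range_fromSpec]; exact ⟨z, rfl⟩
    have := hWle i (hVW hz)
    simpa using this
  have hP : ∀ i, ∃ P : ChartPt k Ch.B₀ Ch.B₁ Γ(T, V),
      chartPtHom Ch P = hVaff.fromSpec ≫ q i := by
    intro i
    have hstr : (hVaff.fromSpec ≫ q i) ≫ c = specStr k Γ(T, V) := by
      rw [Category.assoc, hq, hj]
    rcases hU i with h | h
    · obtain ⟨φ, hφ⟩ := exists_chartPt_inl Ch (hVaff.fromSpec ≫ q i) hstr (h ▸ hrange i)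
      exact ⟨_, hφ⟩
    · obtain ⟨φ, hφ⟩ := exists_chartPt_inr Ch (hVaff.fromSpec ≫ q i) hstr (h ▸ hrange i)
      exact ⟨_, hφ⟩
  choose P hP using hP
  refine ⟨Γ(T, V), inferInstance, inferInstance, hVaff.fromSpec, inferInstance, hj, P, ?_, hP⟩
  rw [hVaff.range_fromSpec]
  exact hξV

/-- Second step: shrink the neighbourhood so that the gluing datum becomes rigidifiable. -/
theorem exists_goodChart (𝔉 : AlgAbelFamily k Ch.B₀ Ch.B₁ Ch.B₀₁ Ch.e) {T : Scheme.{u}}
    (t : T ⟶ Spec (CommRingCat.of k)) (q : Fin 𝔉.g → (T ⟶ C)) (hq : ∀ i, q i ≫ c = t) (ξ : T) :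
    ∃ (A : Type u) (_ : CommRing A) (_ : Algebra k A) (j : Spec (CommRingCat.of A) ⟶ T)
      (_ : IsOpenImmersion j) (_ : j ≫ t = specStr k A)
      (P : Fin 𝔉.g → ChartPt k Ch.B₀ Ch.B₁ A),
      ξ ∈ Set.range j ∧ (∀ i, chartPtHom Ch (P i) = j ≫ q i) ∧
        (𝔉.F A P).Rigidifiable Ch.e := by
  obtain ⟨A₀, _, _, j₀, _, hj₀, P₀, ⟨z, hz⟩, hP₀⟩ := exists_chartPts Ch t q hq ξ
  obtain ⟨f, hf, hrig⟩ := 𝔉.locRig A₀ P₀ z.asIdeal z.isPrime
  let ψ : A₀ →ₐ[k] Localization.Away f := IsScalarTower.toAlgHom k A₀ (Localization.Away f)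
  have hψ : Spec.map (CommRingCat.ofHom ψ.toRingHom) =
      Spec.map (CommRingCat.ofHom (algebraMap A₀ (Localization.Away f))) := rfl
  have hopen : IsOpenImmersion (Spec.map (CommRingCat.ofHom ψ.toRingHom)) := by
    rw [hψ]; infer_instance
  refine ⟨Localization.Away f, inferInstance, inferInstance,
    Spec.map (CommRingCat.ofHom ψ.toRingHom) ≫ j₀, inferInstance, ?_,
    fun i => (P₀ i).map ψ, ?_, ?_, ?_⟩
  · rw [Category.assoc, hj₀]
    exact specMap_algHom_comp_str ψ
  · have hzr : z ∈ Set.range (Spec.map (CommRingCat.ofHom ψ.toRingHom)) := by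
      have h1 : Set.range (Spec.map (CommRingCat.ofHom ψ.toRingHom)) =
          (PrimeSpectrum.basicOpen f : Set (PrimeSpectrum A₀)) :=
        PrimeSpectrum.localization_away_comap_range (Localization.Away f) f
      rw [h1]
      exact hf
    obtain ⟨w, hw⟩ := hzr
    refine ⟨w, ?_⟩
    rw [← hz, ← hw]
    simp
  · intro i
    rw [chartPtHom_map, hP₀ i, Category.assoc]
  · exact hrig _ ψ (IsLocalization.Away.algebraMap_isUnit f)

end

end Fermat.Agent.S25.H567
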