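import Fermat.Agent.S25.H567.AbelCover
import Fermat.Agent.S25.H130.PB

/-!
# Row S25, block ABEL (scheme side), part 3 (helper567): gluing the Abel family

Let `𝔉` be an algebraic Abel family and `q : Fin g → (T ⟶ C)` a tuple of morphisms over `k`.
A rigidified line bundle `N` over `T` is an *Abel bundle* for `q` (`IsAbelBundle`) if its pullback
along every affine test morphism `r : Spec R ⟶ T` on which the points `r ≫ q i` are chart points
`Q i` is the bundle of the gluing datum `𝔉.F R Q`.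

* `isAbelBundle_of_corr`   : the local model (from `DictBC`, `DictIso`, `𝔉.bc`, `𝔉.same`);
* `IsAbelBundle.of_isPB`   : stability under pullback;
* `IsAbelBundle.rIso`      : uniqueness (from `SheafSep`, `DictGlue` and the good charts);
* `exists_isAbelBundleField` : existence (from `SheafGlue`), tested on fields.
-/

set_option autoImplicit false
universe u
open CategoryTheory CategoryTheory.Limits AlgebraicGeometry AlgebraicGeometry.RelPicard
  NeronModelInfra GoodReductionJacobian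
open scoped TensorProduct

namespace Fermat.Agent.S25.H567

open Fermat.Agent.S25 Fermat.Agent.S25.H746 Fermat.Agent.S25.H130

noncomputable section

section GDC

variable {A R₀ R₁ R₀₁ : Type u} [CommRing A] [CommRing R₀] [CommRing R₁]
    [CommRing R₀₁] [Algebra A R₀] [Algebra A R₁] [Algebra A R₀₁] [Algebra R₀ R₀₁]
    [Algebra R₁ R₀₁] [IsScalarTower A R₀ R₀₁] [IsScalarTower A R₁ R₀₁]

theorem gdIsIso_refl (G : GlueDatum A R₀ R₁ R₀₁) : G.IsIso G :=
  ⟨⟨LinearEquiv.refl _ _, LinearEquiv.refl _ _, LinearEquiv.refl _ _, fun _ => rfl,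
    fun _ => rfl⟩⟩

theorem gdIsIso_symm {G G' : GlueDatum A R₀ R₁ R₀₁} (h : G.IsIso G') : G'.IsIso G := by
  obtain ⟨e⟩ := h
  refine ⟨⟨e.e₀.symm, e.e₁.symm, e.e₀₁.symm, fun s => ?_, fun s => ?_⟩⟩
  · apply e.e₀₁.injective
    rw [LinearEquiv.apply_symm_apply, e.comm₀, LinearEquiv.apply_symm_apply]
  · apply e.e₀₁.injective
    rw [LinearEquiv.apply_symm_apply, e.comm₁, LinearEquiv.apply_symm_apply]

theorem gdIsIso_trans {G G' G'' : GlueDatum A R₀ R₁ R₀₁} (h : G.IsIso G')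
    (h' : G'.IsIso G'') : G.IsIso G'' := by
  obtain ⟨e⟩ := h
  obtain ⟨e'⟩ := h'
  refine ⟨⟨e.e₀.trans e'.e₀, e.e₁.trans e'.e₁, e.e₀₁.trans e'.e₀₁, fun s => ?_, fun s => ?_⟩⟩
  · simp only [LinearEquiv.trans_apply, e.comm₀, e'.comm₀]
  · simp only [LinearEquiv.trans_apply, e.comm₁, e'.comm₁]

end GDC

variable {k : Type u} [Field k] {C : Scheme.{u}} {c : C ⟶ Spec (CommRingCat.of k)}
  {ε : SchemeHomOver (𝟙 (Spec (CommRingCat.of k))) c} (Ch : ChartOf c ε)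
  (𝔉 : AlgAbelFamily k Ch.B₀ Ch.B₁ Ch.B₀₁ Ch.e)

/-- Restrictions to the range of an open immersion are isomorphic as soon as the pullbacks
along the open immersion are. -/
theorem rIso_restrictOpen_opensRange {T S : Scheme.{u}} {t : T ⟶ Spec (CommRingCat.of k)}
    {s : S ⟶ Spec (CommRingCat.of k)} (N N' : RigidifiedLineBundle c ε t)
    (j : SchemeHomOver s t) [IsOpenImmersion j.1]
    (h : RIso (N.pullbackAlong j) (N'.pullbackAlong j)) :
    RIso (restrictOpen N j.1.opensRange) (restrictOpen N' j.1.opensRange) := by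
  have hr : Set.range (j.1.opensRange.ι) ⊆ Set.range j.1 := by
    rw [Scheme.Opens.range_ι]; exact subset_rfl
  have hfac : IsOpenImmersion.lift j.1 (j.1.opensRange.ι) hr ≫ j.1 = j.1.opensRange.ι :=
    IsOpenImmersion.lift_fac _ _ _
  have h1 : IsPB (N.pullbackAlong j) (IsOpenImmersion.lift j.1 (j.1.opensRange.ι) hr)
      (restrictOpen N j.1.opensRange) :=
    (isPB_pullbackAlong N j).of_comp ((isPB_restrictOpen N _).of_eq hfac.symm)
  have h2 : IsPB (N'.pullbackAlong j) (IsOpenImmersion.lift j.1 (j.1.opensRange.ι) hr)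
      (restrictOpen N' j.1.opensRange) :=
    (isPB_pullbackAlong N' j).of_comp ((isPB_restrictOpen N' _).of_eq hfac.symm)
  exact (h1.of_rIso_left h).rIso h2

/-- `N` is an Abel bundle for the tuple of points `q`. -/
def IsAbelBundle {T : Scheme.{u}} (t : T ⟶ Spec (CommRingCat.of k)) (q : Fin 𝔉.g → (T ⟶ C))
    (N : RigidifiedLineBundle c ε t) : Prop :=
  ∀ (R : Type u) [CommRing R] [Algebra k R] (r : SchemeHomOver (specStr k R) t)
    (Q : Fin 𝔉.g → ChartPt k Ch.B₀ Ch.B₁ R), (∀ i, chartPtHom Ch (Q i) = r.1 ≫ q i) →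
    ∀ (L : RigidifiedLineBundle c ε (specStr k R)) (G : CurveGD k Ch.B₀ Ch.B₁ Ch.B₀₁ R),
      Corr Ch R L.L G → G.IsIso (𝔉.F R Q) → RIso (N.pullbackAlong r) L

/-- The same property, tested on fields only. -/
def IsAbelBundleField {T : Scheme.{u}} (t : T ⟶ Spec (CommRingCat.of k))
    (q : Fin 𝔉.g → (T ⟶ C)) (N : RigidifiedLineBundle c ε t) : Prop :=
  ∀ (K : Type u) [Field K] [Algebra k K] (r : SchemeHomOver (specStr k K) t)
    (Q : Fin 𝔉.g → ChartPt k Ch.B₀ Ch.B₁ K), (∀ i, chartPtHom Ch (Q i) = r.1 ≫ q i) →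
    ∀ (L : RigidifiedLineBundle c ε (specStr k K)) (G : CurveGD k Ch.B₀ Ch.B₁ Ch.B₀₁ K),
      Corr Ch K L.L G → G.IsIso (𝔉.F K Q) → RIso (N.pullbackAlong r) L

variable {Ch 𝔉}

theorem IsAbelBundle.field {T : Scheme.{u}} {t : T ⟶ Spec (CommRingCat.of k)}
    {q : Fin 𝔉.g → (T ⟶ C)} {N : RigidifiedLineBundle c ε t} (h : IsAbelBundle Ch 𝔉 t q N) :
    IsAbelBundleField Ch 𝔉 t q N :=
  fun K _ _ r Q hQ L G hL hG => h K r Q hQ L G hL hG

/-- The local model: a bundle over `Spec A` with gluing datum `𝔉.F A P`. -/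
theorem isAbelBundle_of_corr (hDI : Stmt.DictIso Ch) (hDB : Stmt.DictBC Ch)
    {A : Type u} [CommRing A] [Algebra k A] (P : Fin 𝔉.g → ChartPt k Ch.B₀ Ch.B₁ A)
    (M : RigidifiedLineBundle c ε (specStr k A)) (hM : Corr Ch A M.L (𝔉.F A P)) :
    IsAbelBundle Ch 𝔉 (specStr k A) (fun i => chartPtHom Ch (P i)) M := by
  intro R _ _ r Q hQ L G hL hG
  obtain ⟨a, rfl⟩ := exists_specHomOver_eq r
  have hcorr : Corr Ch R (M.pullbackAlong (specHomOver k a)).L
      (𝔉.F R (fun i => (P i).map a)) :=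
    hDB A R a M _ _ hM (𝔉.bc A R a P)
  have hsame : (𝔉.F R (fun i => (P i).map a)).IsIso (𝔉.F R Q) := by
    refine 𝔉.same R _ Q (fun i => same_of_chartPtHom_eq Ch _ _ ?_)
    rw [chartPtHom_map, hQ i]
    rfl
  exact (hDI R _ L _ G hcorr hL).2 (gdIsIso_trans hsame (gdIsIso_symm hG))

/-- Abel bundles are stable under pullback. -/
theorem IsAbelBundle.of_isPB {T T' : Scheme.{u}} {t : T ⟶ Spec (CommRingCat.of k)}
    {t' : T' ⟶ Spec (CommRingCat.of k)} {q : Fin 𝔉.g → (T ⟶ C)}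
    {N : RigidifiedLineBundle c ε t} (hN : IsAbelBundle Ch 𝔉 t q N) {f : T' ⟶ T}
    {N' : RigidifiedLineBundle c ε t'} (h : IsPB N f N') {q' : Fin 𝔉.g → (T' ⟶ C)}
    (hq' : ∀ i, q' i = f ≫ q i) : IsAbelBundle Ch 𝔉 t' q' N' := by
  intro R _ _ r Q hQ L G hL hG
  have hw : (r.1 ≫ f) ≫ t = specStr k R := by rw [Category.assoc, h.w, r.2]
  have h1 : RIso (N.pullbackAlong (⟨r.1 ≫ f, hw⟩ : SchemeHomOver (specStr k R) t)) L :=
    hN R ⟨r.1 ≫ f, hw⟩ Q (fun i => by rw [hQ i, hq' i, Category.assoc]) L G hL hG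
  have h2 : IsPB N (r.1 ≫ f) (N'.pullbackAlong r) := h.comp (isPB_pullbackAlong N' r)
  exact rIso_trans (rIso_symm h2.2) h1

/-- Uniqueness of Abel bundles. -/
theorem IsAbelBundle.rIso (hSep : Stmt.SheafSep c ε) (hDG : Stmt.DictGlue Ch)
    {T : Scheme.{u}} {t : T ⟶ Spec (CommRingCat.of k)} {q : Fin 𝔉.g → (T ⟶ C)}
    (hq : ∀ i, q i ≫ c = t) {N N' : RigidifiedLineBundle c ε t}
    (hN : IsAbelBundle Ch 𝔉 t q N) (hN' : IsAbelBundle Ch 𝔉 t q N') : RIso N N' := by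
  let ι : Type u := {V : T.Opens // RIso (restrictOpen N V) (restrictOpen N' V)}
  refine hSep t (ι := ι) (fun V => V.1) ?_ N N' (fun V => V.2)
  rw [eq_top_iff]
  intro ξ _
  obtain ⟨A, _, _, j, _, hj, P, hξ, hP, hrig⟩ := exists_goodChart Ch 𝔉 t q hq ξ
  obtain ⟨L, hL⟩ := hDG A (𝔉.F A P) hrig
  have h1 := hN A ⟨j, hj⟩ P hP L _ hL (gdIsIso_refl _)
  have h2 := hN' A ⟨j, hj⟩ P hP L _ hL (gdIsIso_refl _)
  have h3 := rIso_restrictOpen_opensRange N N' (⟨j, hj⟩ : SchemeHomOver (specStr k A) t)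
    (rIso_trans h1 (rIso_symm h2))
  exact TopologicalSpace.Opens.mem_iSup.2 ⟨⟨j.opensRange, h3⟩, hξ⟩

/-- Local existence of Abel bundles. -/
theorem exists_isAbelBundle_local (hDG : Stmt.DictGlue Ch) (hDI : Stmt.DictIso Ch)
    (hDB : Stmt.DictBC Ch) {T : Scheme.{u}} (t : T ⟶ Spec (CommRingCat.of k))
    (q : Fin 𝔉.g → (T ⟶ C)) (hq : ∀ i, q i ≫ c = t) (ξ : T) :
    ∃ V : T.Opens, ξ ∈ V ∧ ∃ N : RigidifiedLineBundle c ε (V.ι ≫ t),
      IsAbelBundle Ch 𝔉 (V.ι ≫ t) (fun i => V.ι ≫ q i) N := by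
  obtain ⟨A, _, _, j, _, hj, P, hξ, hP, hrig⟩ := exists_goodChart Ch 𝔉 t q hq ξ
  obtain ⟨M, hM⟩ := hDG A (𝔉.F A P) hrig
  have hr : Set.range (j.opensRange.ι) ⊆ Set.range j := by
    rw [Scheme.Opens.range_ι]; exact subset_rfl
  have hfac : IsOpenImmersion.lift j (j.opensRange.ι) hr ≫ j = j.opensRange.ι :=
    IsOpenImmersion.lift_fac _ _ _
  have hw : IsOpenImmersion.lift j (j.opensRange.ι) hr ≫ specStr k A = j.opensRange.ι ≫ t := by
    rw [← hj, ← Category.assoc, hfac]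
  refine ⟨j.opensRange, hξ, M.pullbackAlong ⟨_, hw⟩, ?_⟩
  refine (isAbelBundle_of_corr hDI hDB P M hM).of_isPB (isPB_pullbackAlong M ⟨_, hw⟩) ?_
  intro i
  change _ = _ ≫ chartPtHom Ch (P i)
  rw [hP i, ← Category.assoc, hfac]

/-- Existence of Abel bundles (tested on fields), by gluing. -/
theorem exists_isAbelBundleField (hGlue : Stmt.SheafGlue c ε) (hSep : Stmt.SheafSep c ε)
    (hDG : Stmt.DictGlue Ch) (hDI : Stmt.DictIso Ch) (hDB : Stmt.DictBC Ch)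
    {T : Scheme.{u}} (t : T ⟶ Spec (CommRingCat.of k))
    (q : Fin 𝔉.g → (T ⟶ C)) (hq : ∀ i, q i ≫ c = t) :
    ∃ N : RigidifiedLineBundle c ε t, IsAbelBundleField Ch 𝔉 t q N := by
  let ι : Type u := {V : T.Opens // ∃ N : RigidifiedLineBundle c ε (V.ι ≫ t),
    IsAbelBundle Ch 𝔉 (V.ι ≫ t) (fun i => V.ι ≫ q i) N}
  let U : ι → T.Opens := fun V => V.1
  let M : ∀ V : ι, RigidifiedLineBundle c ε ((U V).ι ≫ t) := fun V => V.2.choose
  have hM : ∀ V : ι, IsAbelBundle Ch 𝔉 ((U V).ι ≫ t) (fun i => (U V).ι ≫ q i) (M V) :=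
    fun V => V.2.choose_spec
  have hcover : ∀ ξ : T, ∃ V : ι, ξ ∈ U V := by
    intro ξ
    obtain ⟨V, hξ, hV⟩ := exists_isAbelBundle_local hDG hDI hDB t q hq ξ
    exact ⟨⟨V, hV⟩, hξ⟩
  have hU : (⨆ V, U V) = ⊤ := by
    rw [eq_top_iff]
    intro ξ _
    obtain ⟨V, hV⟩ := hcover ξ
    exact TopologicalSpace.Opens.mem_iSup.2 ⟨V, hV⟩
  obtain ⟨M₀, hM₀⟩ := hGlue t U hU M (fun V V' => by
    have h1 : IsAbelBundle Ch 𝔉 ((U V ⊓ U V').ι ≫ t) (fun i => (U V ⊓ U V').ι ≫ q i)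
        (restrictLE (M V) (inf_le_left : U V ⊓ U V' ≤ U V)) :=
      (hM V).of_isPB (isPB_pullbackAlong _ _) (fun i => by
        rw [← Category.assoc, Scheme.homOfLE_ι])
    have h2 : IsAbelBundle Ch 𝔉 ((U V ⊓ U V').ι ≫ t) (fun i => (U V ⊓ U V').ι ≫ q i)
        (restrictLE (M V') (inf_le_right : U V ⊓ U V' ≤ U V')) :=
      (hM V').of_isPB (isPB_pullbackAlong _ _) (fun i => by
        rw [← Category.assoc, Scheme.homOfLE_ι])
    exact h1.rIso hSep hDG (fun i => by rw [Category.assoc, hq]) h2)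
  refine ⟨M₀, ?_⟩
  intro K _ _ r Q hQ L G hL hG
  -- the unique point of `Spec K` lands in some member of the cover
  let pt : Spec (CommRingCat.of K) := ⟨⊥, Ideal.isPrime_bot⟩
  obtain ⟨V, hV⟩ := hcover (r.1 pt)
  have hr : Set.range r.1 ⊆ Set.range (U V).ι := by
    rw [Scheme.Opens.range_ι]
    rintro _ ⟨z, rfl⟩
    have hz : z = pt := Subsingleton.elim _ _
    rw [hz]
    exact hV
  have hfac : IsOpenImmersion.lift (U V).ι r.1 hr ≫ (U V).ι = r.1 :=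
    IsOpenImmersion.lift_fac _ _ _
  have hw : IsOpenImmersion.lift (U V).ι r.1 hr ≫ (U V).ι ≫ t = specStr k K := by
    rw [← Category.assoc, hfac, r.2]
  have h1 : IsPB M₀ (U V).ι (M V) := (isPB_restrictOpen M₀ (U V)).of_rIso_right (hM₀ V)
  have h2 : IsPB M₀ r.1 ((M V).pullbackAlong ⟨_, hw⟩) :=
    (h1.comp (isPB_pullbackAlong (M V) ⟨_, hw⟩)).of_eq hfac
  have h3 : RIso (M₀.pullbackAlong r) ((M V).pullbackAlong ⟨_, hw⟩) :=
    (isPB_pullbackAlong M₀ r).rIso h2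
  have h4 : RIso ((M V).pullbackAlong ⟨_, hw⟩) L :=
    hM V K ⟨_, hw⟩ Q (fun i => by rw [hQ i, ← Category.assoc, hfac]) L G hL hG
  exact rIso_trans h3 h4

end

end Fermat.Agent.S25.H567
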