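import Fermat.Agent.S25.H746.AbelDefs
import Fermat.Agent.S25.H566.DictUnit

/-!
# Row S25, block ABEL (scheme side), part 1 (helper567): chart points as morphisms

A chart point `P : ChartPt k B₀ B₁ A` of a two-chart presentation `Ch : ChartOf c ε` defines a
morphism `chartPtHom Ch P : Spec A ⟶ C` over `k`.  Two chart points with the same morphism are
`ChartPt.Same`; every morphism `Spec A ⟶ C` over `k` with range in one chart is of this form.
-/

set_option autoImplicit false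
universe u
open CategoryTheory CategoryTheory.Limits AlgebraicGeometry AlgebraicGeometry.RelPicard
  NeronModelInfra GoodReductionJacobian
open scoped TensorProduct

namespace Fermat.Agent.S25.H567

open Fermat.Agent.S25 Fermat.Agent.S25.H746

noncomputable section

variable {k : Type u} [Field k] {C : Scheme.{u}} {c : C ⟶ Spec (CommRingCat.of k)}

section Incl

variable {U : C.Opens} (hU : IsAffineOpen U) {B : Type u} [CommRing B] [Algebra k B]
  (i : Γ(C, U) ≃+* B)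

/-- The open immersion `Spec B ⟶ C` of an affine open `U` with `Γ(C, U) ≃+* B`. -/
def chartIncl : Spec (CommRingCat.of B) ⟶ C :=
  Spec.map (CommRingCat.ofHom i.toRingHom) ≫ hU.fromSpec

instance isIso_specMap_ringEquiv :
    IsIso (Spec.map (CommRingCat.ofHom i.toRingHom)) := by
  have : IsIso (CommRingCat.ofHom i.toRingHom) :=
    (inferInstance : IsIso i.toCommRingCatIso.hom)
  infer_instance

instance isOpenImmersion_chartIncl : IsOpenImmersion (chartIncl hU i) := by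
  unfold chartIncl
  infer_instance

theorem opensRange_chartIncl : (chartIncl hU i).opensRange = U := by
  unfold chartIncl
  rw [Scheme.Hom.opensRange_comp_of_isIso, hU.opensRange_fromSpec]

theorem range_chartIncl : Set.range (chartIncl hU i) = (U : Set C) := by
  have := congrArg (fun V : C.Opens => (V : Set C)) (opensRange_chartIncl hU i)
  simpa using this

/-- `fromSpec` of an affine open is a morphism over `k`. -/
theorem fromSpec_comp_str :
    hU.fromSpec ≫ c = Spec.map (CommRingCat.ofHom (sectionsStr c U)) := by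
  rw [← IsAffineOpen.SpecMap_appLE_fromSpec c (isAffineOpen_top _) hU le_top,
    IsAffineOpen.fromSpec_top, Scheme.isoSpec_Spec_inv, ← Spec.map_comp]
  rfl

/-- The chart inclusion is a morphism over `k`. -/
theorem chartIncl_comp_str (hi : ∀ a : k, i (sectionsStr c U a) = algebraMap k B a) :
    chartIncl hU i ≫ c = specStr k B := by
  unfold chartIncl
  rw [Category.assoc, fromSpec_comp_str, ← Spec.map_comp]
  congr 1
  ext a
  exact hi a

/-- Morphisms into a chart are determined by the algebra map. -/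
theorem algHom_eq_of_chartIncl {A : Type u} [CommRing A] [Algebra k A] {φ φ' : B →ₐ[k] A}
    (h : Spec.map (CommRingCat.ofHom φ.toRingHom) ≫ chartIncl hU i =
      Spec.map (CommRingCat.ofHom φ'.toRingHom) ≫ chartIncl hU i) : φ = φ' := by
  have h1 := (cancel_mono (chartIncl hU i)).1 h
  have h2 := Spec.map_injective h1
  ext b
  have := congrArg (fun f => f.hom b) h2
  simpa using this

/-- A morphism `Spec A ⟶ C` over `k` with range in the chart `U` comes from an algebra map. -/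
theorem exists_algHom_of_range_subset (hi : ∀ a : k, i (sectionsStr c U a) = algebraMap k B a)
    {A : Type u} [CommRing A] [Algebra k A] (f : Spec (CommRingCat.of A) ⟶ C)
    (hf : f ≫ c = specStr k A) (h : Set.range f ⊆ (U : Set C)) :
    ∃ φ : B →ₐ[k] A, Spec.map (CommRingCat.ofHom φ.toRingHom) ≫ chartIncl hU i = f := by
  have h' : Set.range f ⊆ Set.range (chartIncl hU i) := by
    rw [range_chartIncl]; exact h
  obtain ⟨ρ, hρ⟩ : ∃ ρ : CommRingCat.of B ⟶ CommRingCat.of A,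
      IsOpenImmersion.lift (chartIncl hU i) f h' = Spec.map ρ :=
    ⟨Spec.preimage _, (Spec.map_preimage _).symm⟩
  have hfac : Spec.map ρ ≫ chartIncl hU i = f := by
    rw [← hρ]; exact IsOpenImmersion.lift_fac _ _ _
  have hcomm : CommRingCat.ofHom (algebraMap k B) ≫ ρ = CommRingCat.ofHom (algebraMap k A) := by
    apply Spec.map_injective
    rw [Spec.map_comp]
    change Spec.map ρ ≫ specStr k B = specStr k A
    rw [← chartIncl_comp_str hU i hi, ← Category.assoc, hfac, hf]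
  refine ⟨{ ρ.hom with commutes' := fun x => ?_ }, ?_⟩
  · have := congrArg (fun f => f.hom x) hcomm
    simpa using this
  · rw [← hfac]
    rfl

end Incl

section Pts

variable {ε : SchemeHomOver (𝟙 (Spec (CommRingCat.of k))) c} (Ch : ChartOf c ε)

/-- The chart `Spec B₀ ⟶ C`. -/
abbrev incl₀ : Spec (CommRingCat.of Ch.B₀) ⟶ C := chartIncl Ch.isAffine₀ Ch.i₀

/-- The chart `Spec B₁ ⟶ C`. -/
abbrev incl₁ : Spec (CommRingCat.of Ch.B₁) ⟶ C := chartIncl Ch.isAffine₁ Ch.i₁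

/-- The chart `Spec B₀₁ ⟶ C` of the intersection. -/
abbrev incl₀₁ : Spec (CommRingCat.of Ch.B₀₁) ⟶ C :=
  chartIncl (H566.chart_isAffine₀₁ Ch) Ch.i₀₁

theorem incl₀₁_eq₀ :
    Spec.map (CommRingCat.ofHom (algebraMap Ch.B₀ Ch.B₀₁)) ≫ incl₀ Ch = incl₀₁ Ch := by
  unfold incl₀ incl₀₁ chartIncl
  rw [← IsAffineOpen.map_fromSpec Ch.isAffine₀ (H566.chart_isAffine₀₁ Ch)
    (homOfLE (inf_le_left : Ch.U₀ ⊓ Ch.U₁ ≤ Ch.U₀)).op, ← Category.assoc, ← Category.assoc,
    ← Spec.map_comp, ← Spec.map_comp]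
  congr 2
  ext f
  exact (Ch.i₀₁_res₀ f).symm

theorem incl₀₁_eq₁ :
    Spec.map (CommRingCat.ofHom (algebraMap Ch.B₁ Ch.B₀₁)) ≫ incl₁ Ch = incl₀₁ Ch := by
  unfold incl₁ incl₀₁ chartIncl
  rw [← IsAffineOpen.map_fromSpec Ch.isAffine₁ (H566.chart_isAffine₀₁ Ch)
    (homOfLE (inf_le_right : Ch.U₀ ⊓ Ch.U₁ ≤ Ch.U₁)).op, ← Category.assoc, ← Category.assoc,
    ← Spec.map_comp, ← Spec.map_comp]
  congr 2
  ext f
  exact (Ch.i₀₁_res₁ f).symm

variable {A : Type u} [CommRing A] [Algebra k A]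

/-- The morphism `Spec A ⟶ C` of a chart point. -/
def chartPtHom : ChartPt k Ch.B₀ Ch.B₁ A → (Spec (CommRingCat.of A) ⟶ C)
  | Sum.inl φ => Spec.map (CommRingCat.ofHom φ.toRingHom) ≫ incl₀ Ch
  | Sum.inr φ => Spec.map (CommRingCat.ofHom φ.toRingHom) ≫ incl₁ Ch

theorem specMap_algHom_comp_str {B : Type u} [CommRing B] [Algebra k B] (φ : B →ₐ[k] A) :
    Spec.map (CommRingCat.ofHom φ.toRingHom) ≫ specStr k B = specStr k A :=
  (specHomOver k φ).2

/-- The morphism of a chart point is a morphism over `k`. -/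
theorem chartPtHom_comp_str (P : ChartPt k Ch.B₀ Ch.B₁ A) :
    chartPtHom Ch P ≫ c = specStr k A := by
  rcases P with φ | φ
  · change (Spec.map (CommRingCat.ofHom φ.toRingHom) ≫ incl₀ Ch) ≫ c = _
    rw [Category.assoc, chartIncl_comp_str _ _ Ch.i₀_str, specMap_algHom_comp_str]
  · change (Spec.map (CommRingCat.ofHom φ.toRingHom) ≫ incl₁ Ch) ≫ c = _
    rw [Category.assoc, chartIncl_comp_str _ _ Ch.i₁_str, specMap_algHom_comp_str]

/-- Base change of chart points is composition of morphisms. -/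
theorem chartPtHom_map {A' : Type u} [CommRing A'] [Algebra k A'] (ψ : A →ₐ[k] A')
    (P : ChartPt k Ch.B₀ Ch.B₁ A) :
    chartPtHom Ch (P.map ψ) = Spec.map (CommRingCat.ofHom ψ.toRingHom) ≫ chartPtHom Ch P := by
  rcases P with φ | φ
  · change Spec.map (CommRingCat.ofHom (ψ.comp φ).toRingHom) ≫ incl₀ Ch =
      Spec.map (CommRingCat.ofHom ψ.toRingHom) ≫ Spec.map (CommRingCat.ofHom φ.toRingHom) ≫ _
    rw [← Category.assoc, ← Spec.map_comp]
    rfl
  · change Spec.map (CommRingCat.ofHom (ψ.comp φ).toRingHom) ≫ incl₁ Ch =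
      Spec.map (CommRingCat.ofHom ψ.toRingHom) ≫ Spec.map (CommRingCat.ofHom φ.toRingHom) ≫ _
    rw [← Category.assoc, ← Spec.map_comp]
    rfl

theorem range_chartPtHom_inl (φ : Ch.B₀ →ₐ[k] A) :
    Set.range (chartPtHom Ch (Sum.inl φ : ChartPt k Ch.B₀ Ch.B₁ A)) ⊆ (Ch.U₀ : Set C) := by
  rintro _ ⟨z, rfl⟩
  have : (chartPtHom Ch (Sum.inl φ : ChartPt k Ch.B₀ Ch.B₁ A)) z =
      (incl₀ Ch) ((Spec.map (CommRingCat.ofHom φ.toRingHom)) z) := by
    change (Spec.map (CommRingCat.ofHom φ.toRingHom) ≫ incl₀ Ch) z = _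
    simp
  rw [this, ← range_chartIncl Ch.isAffine₀ Ch.i₀]
  exact ⟨_, rfl⟩

theorem range_chartPtHom_inr (φ : Ch.B₁ →ₐ[k] A) :
    Set.range (chartPtHom Ch (Sum.inr φ : ChartPt k Ch.B₀ Ch.B₁ A)) ⊆ (Ch.U₁ : Set C) := by
  rintro _ ⟨z, rfl⟩
  have : (chartPtHom Ch (Sum.inr φ : ChartPt k Ch.B₀ Ch.B₁ A)) z =
      (incl₁ Ch) ((Spec.map (CommRingCat.ofHom φ.toRingHom)) z) := by
    change (Spec.map (CommRingCat.ofHom φ.toRingHom) ≫ incl₁ Ch) z = _
    simp
  rw [this, ← range_chartIncl Ch.isAffine₁ Ch.i₁]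
  exact ⟨_, rfl⟩

/-- A morphism over `k` with range in `U₀` is the morphism of a chart point. -/
theorem exists_chartPt_inl (f : Spec (CommRingCat.of A) ⟶ C) (hf : f ≫ c = specStr k A)
    (h : Set.range f ⊆ (Ch.U₀ : Set C)) :
    ∃ φ : Ch.B₀ →ₐ[k] A, chartPtHom Ch (Sum.inl φ : ChartPt k Ch.B₀ Ch.B₁ A) = f :=
  exists_algHom_of_range_subset Ch.isAffine₀ Ch.i₀ Ch.i₀_str f hf h

/-- A morphism over `k` with range in `U₁` is the morphism of a chart point. -/
theorem exists_chartPt_inr (f : Spec (CommRingCat.of A) ⟶ C) (hf : f ≫ c = specStr k A)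
    (h : Set.range f ⊆ (Ch.U₁ : Set C)) :
    ∃ φ : Ch.B₁ →ₐ[k] A, chartPtHom Ch (Sum.inr φ : ChartPt k Ch.B₀ Ch.B₁ A) = f :=
  exists_algHom_of_range_subset Ch.isAffine₁ Ch.i₁ Ch.i₁_str f hf h

/-- Auxiliary: a point of `U₀` and a point of `U₁` with the same morphism come from a point of
the intersection. -/
theorem exists_of_inl_eq_inr (φ : Ch.B₀ →ₐ[k] A) (φ' : Ch.B₁ →ₐ[k] A)
    (h : chartPtHom Ch (Sum.inl φ : ChartPt k Ch.B₀ Ch.B₁ A) = chartPtHom Ch (Sum.inr φ')) :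
    ∃ χ : Ch.B₀₁ →ₐ[k] A, φ = χ.comp (IsScalarTower.toAlgHom k Ch.B₀ Ch.B₀₁) ∧
      φ' = χ.comp (IsScalarTower.toAlgHom k Ch.B₁ Ch.B₀₁) := by
  have hr : Set.range (chartPtHom Ch (Sum.inl φ : ChartPt k Ch.B₀ Ch.B₁ A)) ⊆
      ((Ch.U₀ ⊓ Ch.U₁ : C.Opens) : Set C) := by
    intro z hz
    exact ⟨range_chartPtHom_inl Ch φ hz, range_chartPtHom_inr Ch φ' (h ▸ hz)⟩
  obtain ⟨χ, hχ⟩ := exists_algHom_of_range_subset (H566.chart_isAffine₀₁ Ch) Ch.i₀₁
    (H566.chart_i₀₁_str Ch) _ (chartPtHom_comp_str Ch _) hr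
  refine ⟨χ, ?_, ?_⟩
  · apply algHom_eq_of_chartIncl Ch.isAffine₀ Ch.i₀
    change chartPtHom Ch (Sum.inl φ : ChartPt k Ch.B₀ Ch.B₁ A) = _
    rw [← hχ]
    change _ ≫ incl₀₁ Ch = _
    rw [← incl₀₁_eq₀, ← Category.assoc, ← Spec.map_comp]
    rfl
  · apply algHom_eq_of_chartIncl Ch.isAffine₁ Ch.i₁
    change chartPtHom Ch (Sum.inr φ' : ChartPt k Ch.B₀ Ch.B₁ A) = _
    rw [← h, ← hχ]
    change _ ≫ incl₀₁ Ch = _
    rw [← incl₀₁_eq₁, ← Category.assoc, ← Spec.map_comp]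
    rfl

/-- Chart points with the same morphism are `ChartPt.Same`. -/
theorem same_of_chartPtHom_eq (P Q : ChartPt k Ch.B₀ Ch.B₁ A)
    (h : chartPtHom Ch P = chartPtHom Ch Q) : ChartPt.Same Ch.B₀₁ P Q := by
  rcases P with φ | φ <;> rcases Q with φ' | φ'
  · left
    exact congrArg Sum.inl (algHom_eq_of_chartIncl Ch.isAffine₀ Ch.i₀ h)
  · obtain ⟨χ, h1, h2⟩ := exists_of_inl_eq_inr Ch φ φ' h
    exact Or.inr ⟨χ, Or.inl ⟨congrArg Sum.inl h1, congrArg Sum.inr h2⟩⟩
  · obtain ⟨χ, h1, h2⟩ := exists_of_inl_eq_inr Ch φ' φ h.symm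
    exact Or.inr ⟨χ, Or.inr ⟨congrArg Sum.inr h2, congrArg Sum.inl h1⟩⟩
  · left
    exact congrArg Sum.inr (algHom_eq_of_chartIncl Ch.isAffine₁ Ch.i₁ h)

end Pts

end

end Fermat.Agent.S25.H567
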